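import Mathlib.LinearAlgebra.Matrix.Trace
import Mathlib.Data.List.Rotate
import Mathlib.Data.Multiset.Bind
import Mathlib.Data.Fintype.Perm
import Mathlib.Logic.Equiv.Prod
import Mathlib.Algebra.BigOperators.Fin

/-!
# The trace of a permuted tensor product

The sum over all index functions is evaluated by contracting one edge of the permutation at a time:
a fixed point splits off a trace, and an edge multiplies two matrices.
-/

set_option autoImplicit false

noncomputable section

namespace FA.MatrixInvariants

open Finset

variable {β : Type*} {ι : Type*} [Fintype ι] [DecidableEq ι] {R : Type*} [CommRing R]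

omit [DecidableEq ι] in
/-- Summing over the index at one point. -/
theorem sum_funSplit {α : Type*} [Fintype α] [DecidableEq α] [DecidableEq ι] (j : α)
    (F : (α → ι) → R) :
    ∑ f : α → ι, F f =
      ∑ f' : {a // a ≠ j} → ι, ∑ x : ι, F ((Equiv.funSplitAt j ι).symm (x, f')) := by
  rw [Finset.sum_comm]
  exact (Fintype.sum_equiv (Equiv.funSplitAt j ι) F (fun p => F ((Equiv.funSplitAt j ι).symm p))
    fun f => by rw [Equiv.symm_apply_apply]).trans (Fintype.sum_prod_type _)

omit [DecidableEq ι] in
/-- **The trace of a permuted product is a product of traces over cycles.** -/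
theorem exists_cycles (σ₀ : Equiv.Perm β) (M : β → Matrix ι ι R) [DecidableEq ι] :
    ∀ (n : ℕ) {α : Type} [Fintype α] [DecidableEq α], Fintype.card α = n →
      ∀ (σ : Equiv.Perm α) (h : α → β) (t : α → List β),
        (∀ a, (h a :: t a).map σ₀ = t a ++ [h (σ a)]) →
        ∃ cs : List (List β), ((cs.flatten : List β) : Multiset β) =
            ∑ a, ((h a :: t a : List β) : Multiset β) ∧
          (∀ c ∈ cs, c ≠ [] ∧ c.map σ₀ = c.rotate 1) ∧
          (∑ f : α → ι, ∏ a, ((h a :: t a).map M).prod (f a) (f (σ a))) =
            (cs.map fun c => ((c.map M).prod).trace).prod := by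
  intro n
  induction n with
  | zero =>
    intro α _ _ hn σ h t _
    have : IsEmpty α := Fintype.card_eq_zero_iff.1 hn
    refine ⟨[], by simp, by simp, ?_⟩
    simp
  | succ n ih =>
    intro α _ _ hn σ h t hrec
    obtain ⟨i⟩ : Nonempty α := Fintype.card_pos_iff.1 (by omega)
    have hcard : ∀ j : α, Fintype.card {a // a ≠ j} = n := fun j => by
      rw [Fintype.card_subtype_compl, Fintype.card_subtype_eq]
      omega
    by_cases hi : σ i = i
    · -- a fixed point
      have hp : ∀ a, σ a ≠ i ↔ a ≠ i := fun a =>
        ⟨fun h e => h (by rw [e, hi]), fun h e => h (σ.injective (e.trans hi.symm))⟩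
      obtain ⟨cs, hflat, hrot, hval⟩ := ih (hcard i) (σ.subtypePerm hp) (fun a => h a)
        (fun a => t a)
        fun a => by rw [Equiv.Perm.subtypePerm_apply]; exact hrec a
      refine ⟨(h i :: t i) :: cs, ?_, ?_, ?_⟩
      · rw [List.flatten_cons, ← Multiset.coe_add, hflat,
          ← Finset.add_sum_erase _ _ (Finset.mem_univ i)]
        refine congrArg _ ?_
        rw [Finset.sum_subtype (p := fun a => a ≠ i) (Finset.univ.erase i) (by simp)]
      · refine List.forall_mem_cons.2 ⟨⟨List.cons_ne_nil _ _, ?_⟩, hrot⟩
        rw [hrec i, hi, List.rotate_cons_succ, List.rotate_zero]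
      · rw [List.map_cons, List.prod_cons, ← hval, sum_funSplit i, Matrix.trace, Finset.sum_mul,
          Finset.sum_comm]
        refine Finset.sum_congr rfl fun x _ => ?_
        rw [Finset.mul_sum]
        refine Finset.sum_congr rfl fun f' _ => ?_
        set f := (Equiv.funSplitAt i ι).symm (x, f')
        have hf : f i = x := by simp [f]
        have hf' : ∀ a : {a // a ≠ i}, f a = f' a := fun a => by simp [f, a.2]
        rw [← Finset.mul_prod_erase _ _ (Finset.mem_univ i), hi, hf, Matrix.diag_apply]
        refine congrArg _ ?_
        rw [Finset.prod_subtype (p := fun a => a ≠ i) (Finset.univ.erase i) (by simp)]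
        exact Finset.prod_congr rfl fun a _ => by
          rw [hf' a, Equiv.Perm.subtypePerm_apply, ← hf' ⟨σ a, (hp a).2 a.2⟩]
    · -- an edge from `i` to `j`
      obtain ⟨j, hj⟩ : ∃ j, σ i = j := ⟨_, rfl⟩
      have hij : i ≠ j := fun e => hi (hj.trans e.symm)
      have hjj : σ j ≠ j := fun e => hij (σ.injective (hj.trans e.symm))
      set τ := Equiv.swap j (σ j) * σ
      have hτj : τ j = j := by simp [τ]
      have hτi : τ i = σ j := by simp [τ, hj]
      have hτ : ∀ a, a ≠ i → a ≠ j → τ a = σ a := fun a hai haj => by
        simp only [τ, Equiv.Perm.mul_apply]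
        exact Equiv.swap_apply_of_ne_of_ne (fun e => hai (σ.injective (e.trans hj.symm)))
          (fun e => haj (σ.injective e))
      have hp : ∀ a, τ a ≠ j ↔ a ≠ j := fun a =>
        ⟨fun h e => h (by rw [e, hτj]), fun h e => h (τ.injective (e.trans hτj.symm))⟩
      set t' : {a // a ≠ j} → List β := fun a =>
        if (a : α) = i then t i ++ h j :: t j else t a with ht'
      obtain ⟨cs, hflat, hrot, hval⟩ := ih (hcard j) (τ.subtypePerm hp) (fun a => h a) t'
        fun a => by
          rw [Equiv.Perm.subtypePerm_apply]
          by_cases ha : (a : α) = i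
          · rw [ht']
            simp only [ha, if_true, hτi]
            rw [← List.cons_append, List.map_append, hrec i, hj, hrec j]
            simp
          · rw [ht']
            simp only [if_neg ha, hτ a ha a.2]
            exact hrec a
      refine ⟨cs, ?_, hrot, ?_⟩
      · rw [hflat, ← Finset.add_sum_erase _ (fun a => ((h a :: t a : List β) : Multiset β))
          (Finset.mem_univ j), Finset.sum_subtype (p := fun a => a ≠ j) (Finset.univ.erase j)
          (by simp), ← Finset.add_sum_erase _ _ (Finset.mem_univ (⟨i, hij⟩ : {a // a ≠ j})),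
          ← Finset.add_sum_erase _ (fun a : {a // a ≠ j} => ((h a :: t a : List β) : Multiset β))
          (Finset.mem_univ (⟨i, hij⟩ : {a // a ≠ j})), ← add_assoc]
        refine congrArg₂ _ ?_ (Finset.sum_congr rfl fun a ha => ?_)
        · rw [ht']
          simp only [if_true]
          rw [← List.cons_append, ← Multiset.coe_add, add_comm]
        · rw [ht']
          simp only [if_neg fun e : (a : α) = i => (Finset.mem_erase.1 ha).1 (Subtype.ext e)]
      · rw [← hval, sum_funSplit j]
        refine Finset.sum_congr rfl fun f' _ => ?_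
        set i' : {a // a ≠ j} := ⟨i, hij⟩
        have hf' : ∀ (x : ι) (a : {a // a ≠ j}),
            (Equiv.funSplitAt j ι).symm (x, f') a = f' a := fun x a => by simp [a.2]
        have hval' : ∀ (x : ι) (a : {a // a ≠ j}), a ≠ i' →
            ((h a :: t a).map M).prod ((Equiv.funSplitAt j ι).symm (x, f') a)
              ((Equiv.funSplitAt j ι).symm (x, f') (σ a)) =
              ((h a :: t' a).map M).prod (f' a) (f' (τ.subtypePerm hp a)) := fun x a ha => by
          have ha' : (a : α) ≠ i := fun e => ha (Subtype.ext e)
          rw [show t' a = t a from if_neg ha', hf', Equiv.Perm.subtypePerm_apply,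
            ← hf' x ⟨τ a, (hp a).2 a.2⟩]
          simp only [hτ a ha' a.2]
        conv_rhs => rw [← Finset.mul_prod_erase _ _ (Finset.mem_univ i')]
        rw [show t' i' = t i ++ h j :: t j from if_pos rfl, ← List.cons_append, List.map_append,
          List.prod_append, Matrix.mul_apply, Finset.sum_mul]
        refine Finset.sum_congr rfl fun x _ => ?_
        set f := (Equiv.funSplitAt j ι).symm (x, f')
        rw [← Finset.mul_prod_erase _ _ (Finset.mem_univ j),
          Finset.prod_subtype (p := fun a => a ≠ j) (Finset.univ.erase j) (by simp),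
          ← Finset.mul_prod_erase _ _ (Finset.mem_univ i'),
          Finset.prod_congr rfl fun a ha => hval' x a (Finset.mem_erase.1 ha).1,
          show f i' = f' i' from hf' x i', show σ (i' : α) = j from hj, show f j = x by simp [f],
          show f (σ j) = f' (τ.subtypePerm hp i') from ?_]
        · ring
        · rw [Equiv.Perm.subtypePerm_apply, ← hf' x ⟨τ i', (hp i').2 i'.2⟩]
          simp only [i', hτi]
          rfl

/-- **The product over the cycles.** -/
theorem trace_cycles {n : ℕ} (σ : Equiv.Perm (Fin n)) (M : Fin n → Matrix ι ι R) :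
    ∃ cs : List (List (Fin n)), ((cs.flatten : List (Fin n)) : Multiset (Fin n)) = Finset.univ.val ∧
      (∀ c ∈ cs, c ≠ [] ∧ c.map σ = c.rotate 1) ∧
      (∑ f : Fin n → ι, ∏ a, M a (f a) (f (σ a))) =
        (cs.map fun c => ((c.map M).prod).trace).prod := by
  obtain ⟨cs, h1, h2, h3⟩ := exists_cycles σ M n (Fintype.card_fin n) σ id (fun _ => [])
    fun a => by simp
  refine ⟨cs, h1.trans ?_, h2, ?_⟩
  · simp only [id, Multiset.coe_singleton]
    exact Finset.sum_multiset_singleton _
  · rw [← h3]
    simp

end FA.MatrixInvariants
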