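import Fermat.Agent.MatrixInvariants.Cycles
import Fermat.Agent.SchurWeylDuality.Commutant
import Mathlib.RingTheory.MvPolynomial.Homogeneous
import Mathlib.RingTheory.Adjoin.Polynomial.Basic
import Mathlib.Algebra.Polynomial.Roots
import Mathlib.Algebra.CharZero.Infinite

/-!
# Invariants of tuples of matrices

The symmetric coefficients of a homogeneous invariant form, for each sequence of labels, a matrix on
the tensor space commuting with every `g ^ ⊗ N`, so a combination of permutations, and a permutation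
gives a product of traces.
-/

set_option autoImplicit false

noncomputable section

namespace FA.MatrixInvariants

open MvPolynomial
open FA.SchurWeylDuality

variable {K : Type*} [Field K] {τ ι : Type*} [Fintype ι] [DecidableEq ι]

variable (K ι) in
/-- A generic matrix. -/
def gen (t : τ) : Matrix ι ι (MvPolynomial (τ × ι × ι) K) :=
  Matrix.of fun i j => X (t, i, j)

variable (K τ ι) in
/-- The algebra of traces of words. -/
def traceAlg : Subalgebra K (MvPolynomial (τ × ι × ι) K) :=
  Algebra.adjoin K (Set.range fun w : List τ => ((w.map (gen K ι)).prod).trace)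

/-- The value at a tuple. -/
def evalAt (A : τ → Matrix ι ι K) : MvPolynomial (τ × ι × ι) K →+* K :=
  eval fun v => A v.1 v.2.1 v.2.2

/-- Conjugation invariance. -/
def IsConjInv (P : MvPolynomial (τ × ι × ι) K) : Prop :=
  ∀ (g : GL ι K) (A : τ → Matrix ι ι K),
    evalAt (fun t => (g : Matrix ι ι K) * A t * (↑g⁻¹ : Matrix ι ι K)) P = evalAt A P

theorem evalAt_gen (A : τ → Matrix ι ι K) (w : List τ) :
    evalAt A ((w.map (gen K ι)).prod).trace = ((w.map A).prod).trace := by
  have h : ∀ t, (evalAt A).mapMatrix (gen K ι t) = A t := fun t => by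
    ext i j
    simp [evalAt, gen]
  rw [show evalAt A ((w.map (gen K ι)).prod).trace =
    ((evalAt A).mapMatrix (w.map (gen K ι)).prod).trace by simp [Matrix.trace, map_sum],
    map_list_prod, List.map_map]
  exact congrArg (fun l : List (Matrix ι ι K) => l.prod.trace)
    (List.map_congr_left fun t _ => h t)

theorem prod_conj (g : GL ι K) (A : τ → Matrix ι ι K) (w : List τ) :
    (w.map fun t => (g : Matrix ι ι K) * A t * (↑g⁻¹ : Matrix ι ι K)).prod =
      (g : Matrix ι ι K) * (w.map A).prod * (↑g⁻¹ : Matrix ι ι K) := by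
  induction w with
  | nil => simp
  | cons a w ih =>
    rw [List.map_cons, List.prod_cons, ih, List.map_cons, List.prod_cons]
    simp only [mul_assoc, Units.inv_mul_cancel_left]

theorem isConjInv_of_mem {P : MvPolynomial (τ × ι × ι) K} (hP : P ∈ traceAlg K τ ι) :
    IsConjInv P := fun g A => by
  induction hP using Algebra.adjoin_induction with
  | mem x hx =>
    obtain ⟨w, rfl⟩ := hx
    rw [evalAt_gen, evalAt_gen, prod_conj, Matrix.trace_mul_cycle, Units.inv_mul, Matrix.one_mul]
  | algebraMap r => simp [evalAt]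
  | add x y _ _ hx hy => rw [map_add, map_add, hx, hy]
  | mul x y _ _ hx hy => rw [map_mul, map_mul, hx, hy]

/-- The monomial exponent of a sequence of variables. -/
def expOf {σ : Type*} {N : ℕ} (q : Fin N → σ) : σ →₀ ℕ :=
  ∑ i, Finsupp.single (q i) 1

theorem expOf_eq {σ : Type*} [DecidableEq σ] {N : ℕ} (q : Fin N → σ) :
    expOf q = Multiset.toFinsupp ((Finset.univ : Finset (Fin N)).val.map q) := by
  rw [expOf, ← Multiset.sum_map_singleton ((Finset.univ : Finset (Fin N)).val.map q),
    Multiset.map_map, ← Finset.sum_eq_multiset_sum, map_sum]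
  exact Finset.sum_congr rfl fun i _ => (Multiset.toFinsupp_singleton _).symm

theorem monomial_expOf {σ : Type*} {N : ℕ} (q : Fin N → σ) (a : K) :
    monomial (expOf q) a = C a * ∏ i, X (q i) := by
  rw [expOf, ← mul_one a, ← C_mul_monomial, monomial_sum_one, mul_one]
  rfl

variable [CharZero K]

/-- **Symmetric coefficients.** -/
theorem exists_symm_coeff {σ : Type*} [Fintype σ] {N : ℕ} {P : MvPolynomial σ K}
    (hP : P.IsHomogeneous N) : ∃ c : (Fin N → σ) → K,
      (∀ (q : Fin N → σ) (π : Equiv.Perm (Fin N)), c (q ∘ π) = c q) ∧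
        P = ∑ q, C (c q) * ∏ i, X (q i) := by
  classical
  set fib : (σ →₀ ℕ) → Finset (Fin N → σ) := fun μ => Finset.univ.filter fun r => expOf r = μ
  refine ⟨fun q => coeff (expOf q) P / (fib (expOf q)).card, fun q π => ?_, ?_⟩
  · have e : expOf (q ∘ π) = expOf q := Equiv.sum_comp π fun i => Finsupp.single (q i) 1
    simp only [e]
  · ext μ
    simp only [← monomial_expOf, coeff_sum, coeff_monomial]
    rw [← Finset.sum_filter]
    rw [Finset.sum_congr rfl fun q (hq : q ∈ fib μ) => by rw [(Finset.mem_filter.1 hq).2],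
      Finset.sum_const, nsmul_eq_mul]
    by_cases h0 : coeff μ P = 0
    · simp [h0]
    · have hne : (fib μ).Nonempty := by
        have hdeg : (Finsupp.toMultiset μ).card = N := by
          rw [Finsupp.card_toMultiset, ← hP h0]
          simp [Finsupp.weight_apply]
          rfl
        obtain ⟨l, hl⟩ := Quot.exists_rep (Finsupp.toMultiset μ)
        have hlen : l.length = N := by
          rw [← hl] at hdeg
          exact hdeg
        refine ⟨fun i => l.get (Fin.cast hlen.symm i), Finset.mem_filter.2 ⟨Finset.mem_univ _, ?_⟩⟩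
        rw [expOf_eq, Fin.univ_val_map]
        apply Multiset.toFinsupp.symm.injective
        rw [AddEquiv.symm_apply_apply]
        show ((List.ofFn fun i => l.get (Fin.cast hlen.symm i) : List σ) : Multiset σ) = _
        subst hlen
        rw [show (List.ofFn fun i => l.get (Fin.cast rfl i)) = l from List.ofFn_get l]
        exact hl
      rw [mul_div_cancel₀ _ (Nat.cast_ne_zero.2 hne.card_pos.ne')]

/-- Symmetric coefficients are unique. -/
theorem symm_coeff_unique {σ : Type*} [Fintype σ] {N : ℕ} {c c' : (Fin N → σ) → K}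
    (hc : ∀ (q : Fin N → σ) (π : Equiv.Perm (Fin N)), c (q ∘ π) = c q)
    (hc' : ∀ (q : Fin N → σ) (π : Equiv.Perm (Fin N)), c' (q ∘ π) = c' q)
    (h : ∑ q, C (c q) * ∏ i, X (q i) = ∑ q, C (c' q) * ∏ i, X (q i)) : c = c' := by
  classical
  funext q
  have hq := congrArg (coeff (expOf q)) h
  simp only [← monomial_expOf, coeff_sum, coeff_monomial, ← Finset.sum_filter] at hq
  set F := Finset.univ.filter fun r : Fin N → σ => expOf r = expOf q with hF
  have e : ∀ d : (Fin N → σ) → K, (∀ (q : Fin N → σ) (π : Equiv.Perm (Fin N)), d (q ∘ π) = d q) →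
      ∑ r ∈ F, d r = (F.card : K) * d q := fun d hd => by
    have hd' : ∀ r ∈ F, d r = d q := fun r hr => by
      have hr' := (Finset.mem_filter.1 hr).2
      rw [expOf_eq, expOf_eq] at hr'
      obtain ⟨π, rfl⟩ := exists_perm_of_map_eq q r (Multiset.toFinsupp.injective hr').symm
      exact hd q π
    rw [Finset.sum_congr rfl hd', Finset.sum_const, nsmul_eq_mul]
  rw [e c hc, e c' hc'] at hq
  have hF0 : F.card ≠ 0 := Finset.card_ne_zero_of_mem (a := q) (by simp [F])
  exact mul_left_cancel₀ (Nat.cast_ne_zero.2 hF0 : (F.card : K) ≠ 0) hq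

/-- The tensor product of a sequence of matrices. -/
def tens {R : Type*} [CommRing R] {N : ℕ} (B : Fin N → Matrix ι ι R) :
    Matrix (Fin N → ι) (Fin N → ι) R :=
  Matrix.of fun f h => ∏ i, B i (f i) (h i)

omit [DecidableEq ι] [CharZero K] in
theorem tens_mul {N : ℕ} (B B' : Fin N → Matrix ι ι K) :
    (tens fun i => B i * B' i) = tens B * tens B' := by
  ext f h
  simp only [tens, Matrix.of_apply, Matrix.mul_apply, Fintype.prod_sum, Finset.prod_mul_distrib]

/-- Splitting a sequence of variables. -/
def splitSeq {τ ι : Type*} (N : ℕ) :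
    (Fin N → τ × ι × ι) ≃ (Fin N → τ) × (Fin N → ι) × (Fin N → ι) where
  toFun q := (fun i => (q i).1, fun i => (q i).2.1, fun i => (q i).2.2)
  invFun p i := (p.1 i, p.2.1 i, p.2.2 i)

variable [Fintype τ]

omit [DecidableEq ι] [CharZero K] in
/-- The coefficients are traces against the tensor products. -/
theorem sum_coeff_eq {N : ℕ} (c : (Fin N → τ × ι × ι) → K) :
    (∑ q, C (c q) * ∏ i, X (q i)) = ∑ s : Fin N → τ, ∑ f : Fin N → ι, ∑ h : Fin N → ι,
      C (c fun i => (s i, f i, h i)) * tens (fun i => gen K ι (s i)) f h := by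
  rw [Fintype.sum_equiv (splitSeq N) _ (fun p => C (c ((splitSeq N).symm p)) *
    ∏ i, X ((splitSeq N).symm p i)) fun q => by rw [Equiv.symm_apply_apply]]
  simp only [Fintype.sum_prod_type]
  rfl

omit [DecidableEq ι] [CharZero K] in
theorem evalAt_sum_coeff {N : ℕ} (c : (Fin N → τ × ι × ι) → K) (A : τ → Matrix ι ι K) :
    evalAt A (∑ q, C (c q) * ∏ i, X (q i)) = ∑ s : Fin N → τ,
      ((Matrix.of fun (h f : Fin N → ι) => c fun i => (s i, f i, h i)) *
        tens fun i => A (s i)).trace := by
  rw [sum_coeff_eq]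
  simp only [map_sum, map_mul, Matrix.trace, Matrix.diag_apply, Matrix.mul_apply, Matrix.of_apply,
    evalAt, eval_C, tens, map_prod, gen, eval_X]
  exact Finset.sum_congr rfl fun s _ => Finset.sum_comm

/-- A homogeneous invariant is in the algebra of traces. -/
theorem mem_of_isHomogeneous {N : ℕ} {P : MvPolynomial (τ × ι × ι) K} (hP : P.IsHomogeneous N)
    (hinv : IsConjInv P) : P ∈ traceAlg K τ ι := by
  classical
  obtain ⟨c, hc, rfl⟩ := exists_symm_coeff hP
  set M : (Fin N → τ) → Matrix (Fin N → ι) (Fin N → ι) K :=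
    fun s => Matrix.of fun (h f : Fin N → ι) => c fun i => (s i, f i, h i) with hM
  have hMsymm : ∀ (π : Equiv.Perm (Fin N)) s h f, M (s ∘ π) (h ∘ π) (f ∘ π) = M s h f :=
    fun π s h f => hc (fun i => (s i, f i, h i)) π
  have hcomm : ∀ (g : GL ι K) s, M s * tpow (g : Matrix ι ι K) = tpow (g : Matrix ι ι K) * M s := by
    intro g
    set c' : (Fin N → τ × ι × ι) → K := fun q =>
      (tpow (↑g⁻¹ : Matrix ι ι K) * M (fun i => (q i).1) * tpow (g : Matrix ι ι K) :
        Matrix (Fin N → ι) (Fin N → ι) K) (fun i => (q i).2.2) (fun i => (q i).2.1) with hc'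
    have hsym : ∀ (q : Fin N → τ × ι × ι) (π : Equiv.Perm (Fin N)), c' (q ∘ π) = c' q :=
      fun q π => by
        simp only [c', Matrix.mul_apply, Finset.sum_mul, tpow, Matrix.of_apply,
          Function.comp_apply]
        refine (Fintype.sum_equiv (Equiv.arrowCongr π.symm (Equiv.refl ι)) _ _ fun b => ?_).symm
        refine Fintype.sum_equiv (Equiv.arrowCongr π.symm (Equiv.refl ι)) _ _ fun a => ?_
        show _ = (∏ i, (↑g⁻¹ : Matrix ι ι K) (q (π i)).2.2 (a (π i))) *
          M ((fun i => (q i).1) ∘ π) (a ∘ π) (b ∘ π) *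
            ∏ i, (g : Matrix ι ι K) (b (π i)) (q (π i)).2.1
        rw [Equiv.prod_comp π fun i => (↑g⁻¹ : Matrix ι ι K) (q i).2.2 (a i),
          Equiv.prod_comp π fun i => (g : Matrix ι ι K) (b i) (q i).2.1, hMsymm]
    have heq : (∑ q, C (c' q) * ∏ i, X (q i)) = ∑ q, C (c q) * ∏ i, X (q i) := by
      refine MvPolynomial.funext fun x => ?_
      have h := hinv g fun t => Matrix.of fun i j => x (t, i, j)
      rw [evalAt_sum_coeff, evalAt_sum_coeff] at h
      show evalAt (fun t => Matrix.of fun i j => x (t, i, j)) _ =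
        evalAt (fun t => Matrix.of fun i j => x (t, i, j)) _
      rw [evalAt_sum_coeff, evalAt_sum_coeff, ← h]
      refine Finset.sum_congr rfl fun s _ => ?_
      rw [tens_mul, tens_mul]
      show (tpow (↑g⁻¹ : Matrix ι ι K) * M s * tpow (g : Matrix ι ι K) * _).trace =
        (M s * (tpow (g : Matrix ι ι K) * _ * tpow (↑g⁻¹ : Matrix ι ι K))).trace
      rw [Matrix.mul_assoc, Matrix.mul_assoc, Matrix.trace_mul_comm, Matrix.mul_assoc]
    have h' := symm_coeff_unique hsym hc heq
    intro s
    have e : tpow (↑g⁻¹ : Matrix ι ι K) * M s * tpow (g : Matrix ι ι K) = M s :=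
      Matrix.ext fun h f => congrFun h' fun i => (s i, f i, h i)
    calc M s * tpow (g : Matrix ι ι K)
        = tpow (g : Matrix ι ι K) * tpow (↑g⁻¹ : Matrix ι ι K) *
            (M s * tpow (g : Matrix ι ι K)) := by
          rw [← tpow_mul, Units.mul_inv, tpow_one, Matrix.one_mul]
      _ = tpow (g : Matrix ι ι K) * M s := by rw [mul_assoc, ← mul_assoc (tpow _) (M s), e]
  rw [sum_coeff_eq]
  refine sum_mem fun s _ => ?_
  suffices h : ∀ W ∈ Submodule.span K
      (Set.range (permMat K : Equiv.Perm (Fin N) → Matrix (Fin N → ι) (Fin N → ι) K)),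
      (∑ f : Fin N → ι, ∑ h : Fin N → ι, C (W h f) * tens (fun i => gen K ι (s i)) f h) ∈
        traceAlg K τ ι from
    h (M s) ((mem_span_permMat_iff (Nat.cast_ne_zero.2 N.factorial_ne_zero)).2 fun g => hcomm g s)
  intro W hW
  induction hW using Submodule.span_induction with
  | mem b hb =>
    obtain ⟨σ, rfl⟩ := hb
    obtain ⟨cs, -, -, hval⟩ := trace_cycles σ.symm fun a => gen K ι (s (σ.symm a))
    rw [Finset.sum_comm]
    have e : ∀ h : Fin N → ι, (∑ f : Fin N → ι,
        C (permMat K σ h f) * tens (fun i => gen K ι (s i)) f h) =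
          ∏ a, gen K ι (s (σ.symm a)) (h a) (h (σ.symm a)) := fun h => by
      rw [Finset.sum_eq_single (h ∘ σ)
        (fun f _ hf => by rw [permMat_apply, if_neg hf, C_0, zero_mul])
        (by simp), permMat_apply, if_pos rfl, C_1, one_mul, tens, Matrix.of_apply,
        ← Equiv.prod_comp σ.symm]
      simp
    simp only [e, hval]
    refine list_prod_mem fun x hx => ?_
    obtain ⟨l, -, rfl⟩ := List.mem_map.1 hx
    exact Algebra.subset_adjoin
      ⟨l.map fun a => s (σ.symm a), by simp [List.map_map, Function.comp_def]⟩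
  | zero => simp
  | add b d _ _ hb hd =>
    simp only [Matrix.add_apply, map_add, add_mul, Finset.sum_add_distrib]
    exact add_mem hb hd
  | smul t b _ hb =>
    simp only [Matrix.smul_apply, smul_eq_mul, map_mul, mul_assoc, ← Finset.mul_sum]
    exact mul_mem (Subalgebra.algebraMap_mem _ t) hb

omit [Fintype τ] [CharZero K] [Fintype ι] [DecidableEq ι] in
theorem eval_smul_homogeneous {σ : Type*} {N : ℕ} {P : MvPolynomial σ K} (hP : P.IsHomogeneous N)
    (t : K) (x : σ → K) : eval (fun v => t * x v) P = t ^ N * eval x P := by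
  rw [P.as_sum, map_sum, map_sum, Finset.mul_sum]
  refine Finset.sum_congr rfl fun μ hμ => ?_
  rw [eval_monomial, eval_monomial, ← hP (mem_support_iff.1 hμ)]
  simp only [Finsupp.weight_apply, Finsupp.prod, Finsupp.sum, Pi.one_apply, smul_eq_mul, mul_one,
    mul_pow, Finset.prod_mul_distrib, Finset.prod_pow_eq_pow_sum]
  ring

/-- **Procesi's theorem.** -/
theorem isConjInv_iff (P : MvPolynomial (τ × ι × ι) K) : IsConjInv P ↔ P ∈ traceAlg K τ ι := by
  refine ⟨fun hinv => ?_, isConjInv_of_mem⟩
  rw [← sum_homogeneousComponent (φ := P)]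
  refine sum_mem fun N hN => mem_of_isHomogeneous (homogeneousComponent_isHomogeneous N P) ?_
  intro g A
  set S := Finset.range (P.totalDegree + 1)
  have hq : ∀ B : τ → Matrix ι ι K, ∀ t : K, (∑ M ∈ S, Polynomial.C
      (evalAt B (homogeneousComponent M P)) * Polynomial.X ^ M).eval t = evalAt (t • B) P :=
    fun B t => by
      conv_rhs => rw [← sum_homogeneousComponent (φ := P), map_sum]
      rw [Polynomial.eval_finsetSum]
      refine Finset.sum_congr rfl fun M _ => ?_
      rw [Polynomial.eval_mul, Polynomial.eval_C, Polynomial.eval_pow, Polynomial.eval_X,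
        show evalAt (t • B) (homogeneousComponent M P) = t ^ M * evalAt B (homogeneousComponent M P)
          from eval_smul_homogeneous (homogeneousComponent_isHomogeneous M P) t _, mul_comm]
  have hpoly : (∑ M ∈ S, Polynomial.C (evalAt (fun u => (g : Matrix ι ι K) * A u *
      (↑g⁻¹ : Matrix ι ι K)) (homogeneousComponent M P)) * Polynomial.X ^ M) =
      ∑ M ∈ S, Polynomial.C (evalAt A (homogeneousComponent M P)) * Polynomial.X ^ M := by
    refine Polynomial.funext fun t => ?_
    rw [hq, hq, ← hinv g (t • A)]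
    refine congrArg (fun B => evalAt B P) (_root_.funext fun u => ?_)
    simp
  have := congrArg (fun q => Polynomial.coeff q N) hpoly
  simpa [Polynomial.finsetSum_coeff, Finset.sum_ite_eq, hN] using this

end FA.MatrixInvariants
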