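import Mathlib.RingTheory.SimpleModule.Basic
import Mathlib.LinearAlgebra.Trace
import Mathlib.LinearAlgebra.Projection
import Mathlib.LinearAlgebra.Dimension.Constructions
import Mathlib.LinearAlgebra.FiniteDimensional.Lemmas
import Mathlib.Algebra.Algebra.Bilinear

/-!
# Semisimple modules and their characters

For a simple submodule `S` of `V` the projection of `V × W` on its `S`-isotypic part commutes with
all endomorphisms, so by density is multiplication by a scalar; its trace is not zero on `V`, hence
not on `W`, and `S` splits off both.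
-/

set_option autoImplicit false

noncomputable section

namespace FA.MatrixInvariants

universe u v w

variable {K : Type u} [Field K] [CharZero K] {R : Type v} [Ring R] [Algebra K R]

section Isotypic

variable {M : Type*} [AddCommGroup M] [Module R M] (S : Type*) [AddCommGroup S] [Module R S]

/-- The sum of the images of `S`. -/
def imageSum : Submodule R M :=
  ⨆ f : S →ₗ[R] M, LinearMap.range f

theorem equiv_of_le_imageSum [IsSemisimpleModule R M] [IsSimpleModule R S] {T : Submodule R M}
    [IsSimpleModule R T] (hT : T ≤ imageSum S) : Nonempty (S ≃ₗ[R] T) := by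
  obtain ⟨T', h⟩ := exists_isCompl T
  set π := T.projectionOnto T' h
  by_cases hex : ∃ f : S →ₗ[R] M, π ∘ₗ f ≠ 0
  · obtain ⟨f, hf⟩ := hex
    exact ⟨LinearEquiv.ofBijective _ (LinearMap.bijective_of_ne_zero hf)⟩
  · simp only [not_exists, not_not] at hex
    have : Nontrivial T := IsSimpleModule.nontrivial R T
    obtain ⟨x, hx⟩ := exists_ne (0 : T)
    have hle : imageSum (R := R) (M := M) S ≤ LinearMap.ker π :=
      iSup_le fun f => LinearMap.range_le_ker_iff.2 (hex f)
    refine absurd ?_ hx
    rw [← Submodule.projectionOnto_apply_left h x]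
    exact hle (hT x.2)

theorem exists_commuting_projection [IsSemisimpleModule R M] [IsSimpleModule R S] :
    ∃ p : M →ₗ[R] M, (∀ x ∈ imageSum (R := R) S, p x = x) ∧
      (∀ x, p x ∈ imageSum (R := R) S) ∧ ∀ (g : M →ₗ[R] M) x, p (g x) = g (p x) := by
  set C : Submodule R M := imageSum S
  obtain ⟨C', h⟩ := exists_isCompl C
  set π := C.projectionOnto C' h
  have hC : ∀ g : M →ₗ[R] M, ∀ x ∈ C, g x ∈ C := fun g x hx => by
    have hle : C ≤ C.comap g := iSup_le fun f => by
      rintro _ ⟨s, rfl⟩
      exact Submodule.mem_iSup_of_mem (g ∘ₗ f) ⟨s, rfl⟩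
    exact hle hx
  have hC' : ∀ g : M →ₗ[R] M, π ∘ₗ g ∘ₗ C'.subtype = 0 := fun g => by
    by_contra hne
    obtain ⟨m, (hm : IsSimpleModule R m), hmne⟩ :=
      LinearMap.exists_ne_zero_of_sSup_eq_top hne _ (IsSemisimpleModule.sSup_simples_eq_top ..)
    set φ : m →ₗ[R] M := C.subtype ∘ₗ ((π ∘ₗ g ∘ₗ C'.subtype).domRestrict m)
    have hφ : Function.Injective φ :=
      C.injective_subtype.comp (LinearMap.injective_of_ne_zero hmne)
    have e : m ≃ₗ[R] LinearMap.range φ := LinearEquiv.ofInjective φ hφ
    have : IsSimpleModule R (LinearMap.range φ) := IsSimpleModule.congr e.symm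
    obtain ⟨e'⟩ := equiv_of_le_imageSum S (T := LinearMap.range φ) (by
      rintro _ ⟨x, rfl⟩
      exact Subtype.prop _)
    obtain ⟨x, hx⟩ : ∃ x : m, φ x ≠ 0 := by
      have : Nontrivial m := IsSimpleModule.nontrivial R m
      obtain ⟨x, hx⟩ := exists_ne (0 : m)
      exact ⟨x, fun h => hx (hφ (h.trans (map_zero φ).symm))⟩
    have hx0 : ((x : C') : M) = 0 := Submodule.disjoint_def.1 h.disjoint _
      (Submodule.mem_iSup_of_mem ((C'.subtype ∘ₗ m.subtype) ∘ₗ (e'.trans e.symm).toLinearMap)
        ⟨(e'.trans e.symm).symm x, by simp⟩) (x : C').2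
    exact hx (by rw [show x = 0 from Subtype.ext (Subtype.ext hx0), map_zero])
  refine ⟨C.subtype ∘ₗ π, fun x hx => ?_, fun x => (π x).2, fun g x => ?_⟩
  · show ((π x : C) : M) = x
    rw [show π x = ⟨x, hx⟩ from Submodule.projectionOnto_apply_left h ⟨x, hx⟩]
  · obtain ⟨a, ha, b, hb, rfl⟩ := Submodule.mem_sup.1
      (h.sup_eq_top ▸ Submodule.mem_top : x ∈ C ⊔ C')
    have e1 : π (g b) = 0 := LinearMap.congr_fun (hC' g) ⟨b, hb⟩
    have e2 : π b = 0 := Submodule.projectionOnto_apply_right h ⟨b, hb⟩
    have e3 : ∀ y, y ∈ C → (C.subtype ∘ₗ π) y = y := fun y hy => by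
      show ((π y : C) : M) = y
      rw [show π y = ⟨y, hy⟩ from Submodule.projectionOnto_apply_left h ⟨y, hy⟩]
    rw [map_add, map_add, map_add, map_add, e3 a ha, e3 _ (hC g a ha)]
    simp [e1, e2]

end Isotypic

/-- The trace of a scalar. -/
def modTrace (K : Type u) [Field K] {R : Type v} [Ring R] [Algebra K R] (V : Type w)
    [AddCommGroup V]
    [Module K V] [Module R V] [IsScalarTower K R V] (a : R) : K :=
  LinearMap.trace K V (Algebra.lsmul K K V a)

omit [CharZero K] in
theorem modTrace_congr {V W : Type w} [AddCommGroup V] [Module K V] [Module R V]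
    [IsScalarTower K R V] [AddCommGroup W] [Module K W] [Module R W] [IsScalarTower K R W]
    (e : V ≃ₗ[R] W) (a : R) : modTrace K V a = modTrace K W a := by
  rw [modTrace, modTrace, ← LinearMap.trace_conj' (Algebra.lsmul K K V a) (e.restrictScalars K)]
  congr 1
  ext x
  simp [LinearEquiv.conj_apply]

omit [CharZero K] in
theorem modTrace_isCompl {V : Type w} [AddCommGroup V] [Module K V] [Module R V]
    [IsScalarTower K R V] [FiniteDimensional K V] {p q : Submodule R V} (h : IsCompl p q) (a : R) :
    modTrace K V a = modTrace K p a + modTrace K q a := by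
  have : FiniteDimensional K p :=
    FiniteDimensional.finiteDimensional_submodule (p.restrictScalars K)
  have : FiniteDimensional K q :=
    FiniteDimensional.finiteDimensional_submodule (q.restrictScalars K)
  rw [← modTrace_congr (Submodule.prodEquivOfIsCompl p q h) a, modTrace, modTrace, modTrace,
    ← LinearMap.trace_prodMap']
  rfl

/-- **Semisimple modules with equal characters are isomorphic.** -/
theorem nonempty_equiv_of_trace : ∀ (n : ℕ) {V W : Type w} [AddCommGroup V] [Module K V]
    [Module R V] [IsScalarTower K R V] [FiniteDimensional K V] [AddCommGroup W] [Module K W]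
    [Module R W] [IsScalarTower K R W] [FiniteDimensional K W] [IsSemisimpleModule R V]
    [IsSemisimpleModule R W], Module.finrank K V = n →
    (∀ a : R, modTrace K V a = modTrace K W a) → Nonempty (V ≃ₗ[R] W) := by
  intro n
  induction n using Nat.strong_induction_on with
  | _ n ih =>
    intro V W _ _ _ _ _ _ _ _ _ _ _ _ hn h
    have hdim : Module.finrank K V = Module.finrank K W := by
      have h1 := h 1
      rw [modTrace, modTrace, show Algebra.lsmul K K V (1 : R) = 1 from map_one _,
        show Algebra.lsmul K K W (1 : R) = 1 from map_one _, LinearMap.trace_one,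
        LinearMap.trace_one] at h1
      exact_mod_cast h1
    rcases subsingleton_or_nontrivial V with hV | hV
    · have : Subsingleton W :=
        Module.finrank_zero_iff.1 (hdim ▸ Module.finrank_zero_of_subsingleton)
      exact ⟨{ toFun := 0, map_add' := by simp, map_smul' := by simp, invFun := 0,
               left_inv := fun _ => Subsingleton.elim _ _,
               right_inv := fun _ => Subsingleton.elim _ _ }⟩
    obtain ⟨S, (hS : IsSimpleModule R S)⟩ := IsSemisimpleModule.exists_simple_submodule R V
    have : IsSemisimpleModule R (V × W) := by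
      rw [← Submodule.topEquiv.isSemisimpleModule_iff_of_bijective (LinearEquiv.bijective _),
        ← LinearMap.sup_range_inl_inr]
      exact .sup (.range _) (.range _)
    obtain ⟨p, hp1, hp2, hp3⟩ := exists_commuting_projection (R := R) (M := V × W) S
    let F : Module.End (Module.End R (V × W)) (V × W) :=
      { toFun := p, map_add' := map_add p, map_smul' := hp3 }
    classical
    obtain ⟨r, hr⟩ := jacobson_density F
      ((Finset.univ : Finset _).image (Module.finBasis K (V × W)))
    have hpr : ∀ x, p x = r • x := fun x => LinearMap.congr_fun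
      (f := p.restrictScalars K) (g := Algebra.lsmul K K (V × W) r)
      ((Module.finBasis K (V × W)).ext fun i =>
        hr _ (Finset.mem_image_of_mem _ (Finset.mem_univ i))) x
    have hidem : ∀ x : V × W, r • r • x = r • x := fun x => by
      rw [← hpr, ← hpr]
      exact hp1 _ (hp2 x)
    have hfixS : ∀ s : S, r • (s : V) = s := fun s => by
      have := (hpr ((s : V), 0)).symm.trans (hp1 _ (Submodule.mem_iSup_of_mem
        (LinearMap.inl R V W ∘ₗ S.subtype) ⟨s, rfl⟩))
      exact congrArg Prod.fst this
    have htr : modTrace K W r ≠ 0 := by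
      rw [← h r, modTrace]
      set f := Algebra.lsmul K K V r
      have hf : LinearMap.IsProj (LinearMap.range f) f :=
        ⟨fun x => LinearMap.mem_range_self f x, by
          rintro _ ⟨x, rfl⟩
          exact congrArg Prod.fst (hidem (x, 0))⟩
      rw [hf.trace, Nat.cast_ne_zero]
      intro h0
      have : Nontrivial S := IsSimpleModule.nontrivial R S
      obtain ⟨s, hs⟩ := exists_ne (0 : S)
      have hmem : (s : V) ∈ LinearMap.range f := ⟨s, hfixS s⟩
      rw [Submodule.finrank_eq_zero.1 h0, Submodule.mem_bot] at hmem
      exact hs (Subtype.ext hmem)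
    obtain ⟨w, hw⟩ : ∃ w : W, r • w ≠ 0 := by
      by_contra hc
      simp only [not_exists, not_not] at hc
      refine htr ?_
      rw [modTrace, show Algebra.lsmul K K W r = 0 from LinearMap.ext hc, map_zero]
    set N : Submodule R W := (imageSum (R := R) (M := V × W) S).comap (LinearMap.inr R V W)
    have : Nontrivial N := ⟨⟨⟨r • w, by
      show ((0 : V), r • w) ∈ imageSum (R := R) S
      have := hp2 (0, w)
      rwa [hpr, Prod.smul_mk, smul_zero] at this⟩, 0, fun e => hw (congrArg Subtype.val e)⟩⟩
    obtain ⟨T, (hT : IsSimpleModule R T)⟩ := IsSemisimpleModule.exists_simple_submodule R N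
    set φ : T →ₗ[R] V × W := LinearMap.inr R V W ∘ₗ N.subtype ∘ₗ T.subtype
    have hφ : Function.Injective φ :=
      LinearMap.inr_injective.comp (N.injective_subtype.comp T.injective_subtype)
    have : IsSimpleModule R (LinearMap.range φ) :=
      IsSimpleModule.congr (LinearEquiv.ofInjective φ hφ).symm
    obtain ⟨e⟩ := equiv_of_le_imageSum S (T := LinearMap.range φ) (by
      rintro _ ⟨x, rfl⟩
      exact (x : N).2)
    set j : S →ₗ[R] W :=
      N.subtype ∘ₗ T.subtype ∘ₗ (e.trans (LinearEquiv.ofInjective φ hφ).symm).toLinearMap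
    have hj : Function.Injective j := N.injective_subtype.comp (T.injective_subtype.comp
      (e.trans (LinearEquiv.ofInjective φ hφ).symm).injective)
    obtain ⟨V', hV'⟩ := exists_isCompl S
    obtain ⟨W', hW'⟩ := exists_isCompl (LinearMap.range j)
    have : FiniteDimensional K V' :=
      FiniteDimensional.finiteDimensional_submodule (V'.restrictScalars K)
    have : FiniteDimensional K W' :=
      FiniteDimensional.finiteDimensional_submodule (W'.restrictScalars K)
    have : FiniteDimensional K S :=
      FiniteDimensional.finiteDimensional_submodule (S.restrictScalars K)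
    have hlt : Module.finrank K V' < n := by
      have hsum := (Submodule.prodEquivOfIsCompl S V' hV').restrictScalars K |>.finrank_eq
      rw [Module.finrank_prod, hn] at hsum
      have : Nontrivial S := IsSimpleModule.nontrivial R S
      have : 0 < Module.finrank K S := Module.finrank_pos
      omega
    obtain ⟨f⟩ := ih _ hlt (V := V') (W := W') rfl fun a => by
      have := h a
      rw [modTrace_isCompl hV' a, modTrace_isCompl hW' a,
        ← modTrace_congr (LinearEquiv.ofInjective j hj) a] at this
      exact add_left_cancel this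
    exact ⟨(Submodule.prodEquivOfIsCompl S V' hV').symm.trans
      (((LinearEquiv.ofInjective j hj).prodCongr f).trans
        (Submodule.prodEquivOfIsCompl _ W' hW'))⟩

end FA.MatrixInvariants
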