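import Fermat.Agent.MatrixInvariants.Semisimple
import Fermat.Agent.Root.SummaryNagataHigman
import Mathlib.Algebra.FreeAlgebra

/-!
# Semisimple tuples of matrices

A tuple makes the column vectors a module over the free algebra. Its traces on all elements are
combinations of the traces of words, so semisimple tuples with equal traces of words are conjugate.
-/

set_option autoImplicit false

noncomputable section

namespace FA.MatrixInvariants

variable {K : Type*} [Field K] {τ ι : Type*} [Fintype ι] [DecidableEq ι]

/-- Every common invariant subspace has an invariant complement. -/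
def IsSemisimpleTuple (A : τ → Matrix ι ι K) : Prop :=
  ∀ U : Submodule K (ι → K), (∀ t, ∀ v ∈ U, (A t).mulVec v ∈ U) →
    ∃ U' : Submodule K (ι → K), (∀ t, ∀ v ∈ U', (A t).mulVec v ∈ U') ∧ IsCompl U U'

/-- The column vectors with the action of a tuple. -/
def Rep (_A : τ → Matrix ι ι K) : Type _ :=
  ι → K

variable (A : τ → Matrix ι ι K)

instance : AddCommGroup (Rep A) :=
  inferInstanceAs (AddCommGroup (ι → K))

instance : Module K (Rep A) :=
  inferInstanceAs (Module K (ι → K))

instance : FiniteDimensional K (Rep A) :=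
  inferInstanceAs (FiniteDimensional K (ι → K))

/-- The action of the free algebra. -/
def repHom : FreeAlgebra K τ →ₐ[K] Module.End K (Rep A) :=
  Matrix.toLinAlgEquiv'.toAlgHom.comp (FreeAlgebra.lift K A)

instance : Module (FreeAlgebra K τ) (Rep A) :=
  Module.compHom _ (repHom A).toRingHom

instance : IsScalarTower K (FreeAlgebra K τ) (Rep A) :=
  ⟨fun c a v => by
    show repHom A (c • a) v = c • repHom A a v
    rw [map_smul, LinearMap.smul_apply]⟩

variable {A}

theorem smul_eq_mulVec (a : FreeAlgebra K τ) (v : Rep A) :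
    a • v = (FreeAlgebra.lift K A a).mulVec v :=
  rfl

theorem isSemisimpleModule_rep (hA : IsSemisimpleTuple A) :
    IsSemisimpleModule (FreeAlgebra K τ) (Rep A) :=
  { exists_isCompl := fun N => by
      let U₀ : Submodule K (ι → K) :=
        { carrier := {v | (v : Rep A) ∈ N}
          add_mem' := fun ha hb => N.add_mem ha hb
          zero_mem' := N.zero_mem
          smul_mem' := fun c v hv => (N.restrictScalars K).smul_mem c hv }
      obtain ⟨U, hU, hc⟩ := hA U₀ fun t v hv => by
        have := N.smul_mem (FreeAlgebra.ι K t) hv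
        rwa [smul_eq_mulVec, FreeAlgebra.lift_ι_apply] at this
      have hsmul : ∀ (a : FreeAlgebra K τ) (v : Rep A), v ∈ U → a • v ∈ U := fun a => by
        induction a using FreeAlgebra.induction with
        | grade0 c =>
          intro v hv
          rw [smul_eq_mulVec, AlgHom.commutes, Algebra.algebraMap_eq_smul_one, Matrix.smul_mulVec,
            Matrix.one_mulVec]
          exact U.smul_mem c hv
        | grade1 t => intro v hv; rw [smul_eq_mulVec, FreeAlgebra.lift_ι_apply]; exact hU t v hv
        | mul a b ha hb => intro v hv; rw [mul_smul]; exact ha _ (hb v hv)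
        | add a b ha hb => intro v hv; rw [add_smul]; exact U.add_mem (ha v hv) (hb v hv)
      refine ⟨{ U with smul_mem' := fun a v hv => hsmul a v hv }, ?_, ?_⟩
      · rw [disjoint_iff, eq_bot_iff]
        intro x hx
        exact (Submodule.disjoint_def.1 hc.disjoint x hx.1 hx.2 :)
      · rw [codisjoint_iff, eq_top_iff]
        intro x _
        have hx := hc.sup_eq_top.ge (Submodule.mem_top (R := K) (M := ι → K) (x := x))
        obtain ⟨a, ha, b, hb, rfl⟩ := Submodule.mem_sup.1 hx
        exact Submodule.add_mem_sup (show (a : Rep A) ∈ N from ha) hb }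

theorem modTrace_rep (a : FreeAlgebra K τ) :
    modTrace K (Rep A) a = (FreeAlgebra.lift K A a).trace := by
  rw [modTrace, ← Matrix.trace_toLin'_eq]
  rfl

/-- The traces of all elements are combinations of the traces of words. -/
theorem trace_lift_eq (B : τ → Matrix ι ι K)
    (h : ∀ w : List τ, ((w.map A).prod).trace = ((w.map B).prod).trace) (a : FreeAlgebra K τ) :
    (FreeAlgebra.lift K A a).trace = (FreeAlgebra.lift K B a).trace := by
  set W : Submodule K (Matrix ι ι K × Matrix ι ι K) :=
    Submodule.span K (Set.range fun w : List τ => ((w.map A).prod, (w.map B).prod))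
  have hmul : ∀ x ∈ W, ∀ y ∈ W, x * y ∈ W := fun x hx y hy => by
    refine Submodule.mul_le.1 ?_ x hx y hy
    rw [Submodule.span_mul_span]
    refine Submodule.span_mono ?_
    rintro _ ⟨_, ⟨u, rfl⟩, _, ⟨v, rfl⟩, rfl⟩
    exact ⟨u ++ v, by simp [Prod.mk_mul_mk]⟩
  have hmem : (FreeAlgebra.lift K A a, FreeAlgebra.lift K B a) ∈ W := by
    induction a using FreeAlgebra.induction with
    | grade0 c =>
      rw [AlgHom.commutes, AlgHom.commutes, Algebra.algebraMap_eq_smul_one]
      exact Submodule.smul_mem W c (Submodule.subset_span ⟨[], by simp⟩ :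
        ((1 : Matrix ι ι K), (1 : Matrix ι ι K)) ∈ W)
    | grade1 t => exact Submodule.subset_span ⟨[t], by simp⟩
    | mul a b ha hb =>
      rw [map_mul, map_mul]
      exact hmul _ ha _ hb
    | add a b ha hb =>
      rw [map_add, map_add]
      exact W.add_mem ha hb
  exact LinearMap.eqOn_span
    (f := (Matrix.traceLinearMap ι K K).comp (LinearMap.fst K _ _))
    (g := (Matrix.traceLinearMap ι K K).comp (LinearMap.snd K _ _))
    (by rintro _ ⟨w, rfl⟩; exact h w) hmem

variable [CharZero K]

/-- **Semisimple tuples with equal traces of words are conjugate.** -/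
theorem exists_conj_of_trace {B : τ → Matrix ι ι K} (hA : IsSemisimpleTuple A)
    (hB : IsSemisimpleTuple B)
    (h : ∀ w : List τ, ((w.map A).prod).trace = ((w.map B).prod).trace) :
    ∃ g : GL ι K, ∀ t, B t = (g : Matrix ι ι K) * A t * (↑g⁻¹ : Matrix ι ι K) := by
  have := isSemisimpleModule_rep hA
  have := isSemisimpleModule_rep hB
  obtain ⟨e⟩ := nonempty_equiv_of_trace (R := FreeAlgebra K τ) (Module.finrank K (Rep A))
    (V := Rep A) (W := Rep B) rfl fun a => by
      rw [modTrace_rep, modTrace_rep, trace_lift_eq B h]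
  set e' : (ι → K) ≃ₗ[K] (ι → K) := e.restrictScalars K
  set g : GL ι K := Units.map Matrix.toLinAlgEquiv'.symm.toMonoidHom
    (LinearMap.GeneralLinearGroup.ofLinearEquiv e')
  have hg : ∀ v, (g : Matrix ι ι K).mulVec v = e' v := fun v => by
    rw [← Matrix.toLin'_apply]
    exact congrArg (fun f : Module.End K (ι → K) => f v)
      (Matrix.toLinAlgEquiv'.apply_symm_apply (e' : Module.End K (ι → K)))
  refine ⟨g, fun t => ?_⟩
  have hcomm : (g : Matrix ι ι K) * A t = B t * (g : Matrix ι ι K) := by
    refine Matrix.toLin'.injective (LinearMap.ext fun v => ?_)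
    rw [Matrix.toLin'_apply, Matrix.toLin'_apply, ← Matrix.mulVec_mulVec, ← Matrix.mulVec_mulVec,
      hg, hg]
    have h1 := e.map_smul (FreeAlgebra.ι K t) v
    rw [smul_eq_mulVec, smul_eq_mulVec, FreeAlgebra.lift_ι_apply, FreeAlgebra.lift_ι_apply] at h1
    exact h1
  rw [hcomm, Matrix.mul_assoc, Units.mul_inv, Matrix.mul_one]

end FA.MatrixInvariants
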